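import Fermat.Agent.S55.NIT.Defs

/-!
# S55 / NIT / Loc : the only local input of block NIT that is imported from LOC (through DICT)
-/

set_option autoImplicit false

namespace Fermat.Agent.S55.NIT

open IsDedekindDomain NumberField

universe u

/-- **Import from LOC/DICT.**  At a place `v ∣ p` with exactly one prime of `L` above it
(`L/K` Galois of degree `p`) the group of local norms is a proper subgroup of `Kˣ`.
(Only the wildly ramified case is really needed: the unramified case is proved in
`NIT/Loc/NonNormUnram.lean`.) -/
def WildInput (p : ℕ) (K : Type u) [Field K] [NumberField K] : Prop :=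
  ∀ (L : Type u) [Field L] [NumberField L] [Algebra K L] [IsGalois K L],
    Module.finrank K L = p → ∀ v : Pl K, (p : 𝓞 K) ∈ v.asIdeal →
      (v.asIdeal.primesOver (𝓞 L)).ncard = 1 → locNorm K L v ≠ ⊤

end Fermat.Agent.S55.NIT
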