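/-
S55 / NIT-L3 : `e f g = p`, `g = 1`: either `e = 1` or (`e = p` and `f = 1`).
Owner: helper163.
-/
import Fermat.Agent.S55.NIT.Loc.Defs

set_option autoImplicit false
set_option linter.style.haveILetI false

namespace Fermat.Agent.S55.NIT

open IsDedekindDomain NumberField WithZero

variable {K : Type*} [Field K] [NumberField K] {L : Type*} [Field L] [NumberField L] [Algebra K L]

namespace EF

theorem liesOver_of_under (v : Pl K) (w : Pl L) (hw : w.under (𝓞 K) = v) :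
    w.asIdeal.LiesOver v.asIdeal := by
  refine ⟨?_⟩
  rw [← hw]
  rfl

/-- residue degree one: the residue field map is onto. -/
theorem exists_sub_mem_of_finrank_eq_one {A B : Type*} [CommRing A] [CommRing B] [Algebra A B]
    (P : Ideal A) (Q : Ideal B) [Q.LiesOver P] [P.IsMaximal] [Q.IsMaximal]
    (h : Module.finrank (A ⧸ P) (B ⧸ Q) = 1) (a : B) :
    ∃ c : A, a - algebraMap A B c ∈ Q := by
  letI : Field (A ⧸ P) := Ideal.Quotient.field P
  letI : Field (B ⧸ Q) := Ideal.Quotient.field Q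
  obtain ⟨c, hc⟩ := (finrank_eq_one_iff_of_nonzero' (1 : B ⧸ Q) one_ne_zero).mp h
    (Ideal.Quotient.mk Q a)
  obtain ⟨c, rfl⟩ := Ideal.Quotient.mk_surjective c
  refine ⟨c, ?_⟩
  rw [Algebra.smul_def, mul_one] at hc
  have h5 : algebraMap (A ⧸ P) (B ⧸ Q) (Ideal.Quotient.mk P c)
      = Ideal.Quotient.mk Q (algebraMap A B c) := rfl
  rw [h5] at hc
  rw [← Ideal.Quotient.eq, hc]

end EF

theorem ramIdx_eq_one_or [IsGalois K L] {p : ℕ} (hp : p.Prime) (hdeg : Module.finrank K L = p)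
    (v : Pl K) (h1 : (v.asIdeal.primesOver (𝓞 L)).ncard = 1) (w : Pl L) (hw : w.under (𝓞 K) = v) :
    v.asIdeal.ramificationIdx' w.asIdeal = 1 ∨
      (v.asIdeal.ramificationIdx' w.asIdeal = p ∧
        ∀ a : 𝓞 L, ∃ c : 𝓞 K, a - algebraMap (𝓞 K) (𝓞 L) c ∈ w.asIdeal) := by
  haveI := EF.liesOver_of_under v w hw
  haveI : v.asIdeal.IsMaximal := v.isMaximal
  haveI : w.asIdeal.IsMaximal := w.isMaximal
  have h := Ideal.ncard_primesOver_mul_ramificationIdxIn_mul_inertiaDegIn v.asIdeal (𝓞 L)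
    (L ≃ₐ[K] L)
  rw [IsGalois.card_aut_eq_finrank, hdeg, h1, one_mul,
    Ideal.ramificationIdxIn_eq_ramificationIdx v.asIdeal w.asIdeal (L ≃ₐ[K] L),
    Ideal.inertiaDegIn_eq_inertiaDeg v.asIdeal w.asIdeal (L ≃ₐ[K] L),
    ← Ideal.ramificationIdx'_eq_ramificationIdx v.asIdeal w.asIdeal v.ne_bot] at h
  rcases hp.eq_one_or_self_of_dvd _ ⟨_, h.symm⟩ with he | he
  · exact Or.inl he
  · refine Or.inr ⟨he, ?_⟩
    rw [he] at h
    have hf : w.asIdeal.inertiaDeg (𝓞 K) = 1 := by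
      have := Nat.eq_of_mul_eq_mul_left hp.pos (h.trans (mul_one p).symm)
      exact this
    rw [Ideal.inertiaDeg_eq_of_isMaximal v.asIdeal w.asIdeal] at hf
    exact EF.exists_sub_mem_of_finrank_eq_one v.asIdeal w.asIdeal hf

end Fermat.Agent.S55.NIT
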