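/-
S55 / NIT, node NIT-L6: a unit at `v ∤ p` which is not a `p`-th power modulo `v`.
Owner: helper296.
-/
import Fermat.Agent.S55.NIT.Defs

set_option autoImplicit false

namespace Fermat.Agent.S55.NIT

open IsDedekindDomain NumberField WithZero

variable {K : Type*} [Field K] [NumberField K]

namespace NonPow

theorem val_pow_sub_pow_lt (w : Pl K) {y z : K} (hy : w.valuation K y ≤ 1)
    (hz : w.valuation K z ≤ 1) (h : w.valuation K (y - z) < 1) (k : ℕ) :
    w.valuation K (y ^ k - z ^ k) < 1 := by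
  induction k with
  | zero => simp
  | succ k ih =>
    have e : y ^ (k + 1) - z ^ (k + 1) = y ^ k * (y - z) + (y ^ k - z ^ k) * z := by ring
    rw [e]
    apply Valuation.map_add_lt
    · rw [map_mul]
      exact lt_of_le_of_lt (mul_le_of_le_one_left' (by rw [map_pow]; exact pow_le_one' hy k)) h
    · rw [map_mul]
      exact lt_of_le_of_lt (mul_le_of_le_one_right' hz) ih

/-- In a finite commutative ring with a nontrivial `p`-th root of unity, some element is not a
`p`-th power. -/
theorem exists_not_pow {k : Type*} [CommRing k] [Finite k] {p : ℕ} {z : k} (hz : z ^ p = 1)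
    (hz1 : z ≠ 1) : ∃ u : k, ∀ c : k, c ^ p ≠ u := by
  by_contra h
  push Not at h
  have hs : Function.Surjective (fun c : k => c ^ p) := h
  have hi : Function.Injective (fun c : k => c ^ p) := Finite.injective_iff_surjective.2 hs
  exact hz1 (hi (by simp [hz]))

end NonPow

/-- NIT-L6 (file Loc/NonPow.lean). A unit at `v ∤ p` which is not a `p`-th power modulo `v`.
Proof: the residue field is finite, the image of `ζ` has order `p` (`∏ (1 - ζ^i) = p ∉ v`), so
`x ↦ x^p` is not injective, hence not surjective, on its units. -/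
theorem exists_unit_not_pow {p : ℕ} (hp : p.Prime) {ζ : K} (hζ : IsPrimitiveRoot ζ p) (v : Pl K)
    (hv : (p : 𝓞 K) ∉ v.asIdeal) :
    ∃ u : Kˣ, v.valuation K (u : K) = 1 ∧ ¬ ∃ c : K, v.valuation K ((u : K) - c ^ p) < 1 := by
  classical
  have : NeZero p := ⟨hp.ne_zero⟩
  have : Finite (𝓞 K ⧸ v.asIdeal) := Ideal.finiteQuotientOfFreeOfNeBot v.asIdeal v.ne_bot
  have hζ' : IsPrimitiveRoot hζ.toInteger p := hζ.toInteger_isPrimitiveRoot
  set q := Ideal.Quotient.mk v.asIdeal with hq
  have hz : (q hζ.toInteger) ^ p = 1 := by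
    rw [← map_pow, hζ'.pow_eq_one, map_one]
  have hz1 : q hζ.toInteger ≠ 1 := by
    intro h
    have h0 : ∑ i ∈ Finset.range p, hζ.toInteger ^ i = 0 := hζ'.geom_sum_eq_zero hp.one_lt
    have h1 := congrArg q h0
    rw [map_sum, map_zero] at h1
    simp only [map_pow, h, one_pow, Finset.sum_const, Finset.card_range, nsmul_eq_mul,
      mul_one] at h1
    apply hv
    rw [← Ideal.Quotient.eq_zero_iff_mem, map_natCast]
    exact h1
  obtain ⟨ub, hub⟩ := NonPow.exists_not_pow hz hz1
  obtain ⟨u', rfl⟩ := Ideal.Quotient.mk_surjective ub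
  have hu'v : u' ∉ v.asIdeal := by
    intro h
    apply hub 0
    rw [zero_pow hp.ne_zero]
    exact ((Ideal.Quotient.eq_zero_iff_mem).2 h).symm
  have hu'0 : algebraMap (𝓞 K) K u' ≠ 0 := by
    intro h
    apply hu'v
    have : u' = 0 := (map_eq_zero_iff _ (IsFractionRing.injective (𝓞 K) K)).1 h
    rw [this]
    exact v.asIdeal.zero_mem
  have hvu : v.valuation K (algebraMap (𝓞 K) K u') = 1 :=
    (HeightOneSpectrum.valuation_eq_one_iff_notMem (K := K) (v := v)).2 hu'v
  refine ⟨Units.mk0 _ hu'0, hvu, ?_⟩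
  rintro ⟨y, hy⟩
  rw [Units.val_mk0] at hy
  have hy1 : v.valuation K y ≤ 1 := by
    by_contra h
    push Not at h
    have h2 : v.valuation K (algebraMap (𝓞 K) K u') < v.valuation K (y ^ p) := by
      rw [hvu, map_pow]
      exact one_lt_pow' h hp.ne_zero
    rw [Valuation.map_sub_eq_of_lt_right _ h2] at hy
    rw [hvu] at h2
    exact absurd hy (not_lt.2 h2.le)
  obtain ⟨y1, hy1'⟩ := HeightOneSpectrum.exists_valuation_sub_lt_of_integer v hy1 1
  rw [Units.val_one] at hy1'
  have hy2 : v.valuation K (y ^ p - (algebraMap (𝓞 K) K y1) ^ p) < 1 := by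
    apply NonPow.val_pow_sub_pow_lt v hy1 (HeightOneSpectrum.valuation_le_one v y1)
    rw [Valuation.map_sub_swap]
    exact hy1'
  have hy3 : v.valuation K (algebraMap (𝓞 K) K (u' - y1 ^ p)) < 1 := by
    have e : algebraMap (𝓞 K) K (u' - y1 ^ p)
        = (algebraMap (𝓞 K) K u' - y ^ p) + (y ^ p - (algebraMap (𝓞 K) K y1) ^ p) := by
      rw [map_sub, map_pow]; ring
    rw [e]
    exact Valuation.map_add_lt _ hy hy2
  have hy4 : u' - y1 ^ p ∈ v.asIdeal := (HeightOneSpectrum.valuation_lt_one_iff_mem (K := K) v _).1 hy3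
  apply hub (q y1)
  rw [← map_pow]
  exact ((Ideal.Quotient.eq).2 hy4).symm

end Fermat.Agent.S55.NIT
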