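/-
S55 / NIT, node NIT-L5: residue degree one, field form.   Owner: helper79 (architect helper58).
-/
import Fermat.Agent.S55.NIT.Defs

set_option autoImplicit false

namespace Fermat.Agent.S55.NIT

open IsDedekindDomain NumberField WithZero

variable {K : Type*} [Field K] [NumberField K] {L : Type*} [Field L] [NumberField L] [Algebra K L]

/-- NIT-L5. Residue degree one, field form: every `w`-integral element of `L` is congruent modulo
`w` to a `v`-integral element of `K`. -/
theorem exists_sub_lt_one (v : Pl K) (w : Pl L) (hw : w.under (𝓞 K) = v)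
    (hf : ∀ a : 𝓞 L, ∃ c : 𝓞 K, a - algebraMap (𝓞 K) (𝓞 L) c ∈ w.asIdeal)
    (y : L) (hy : w.valuation L y ≤ 1) :
    ∃ c : K, v.valuation K c ≤ 1 ∧ w.valuation L (y - algebraMap K L c) < 1 := by
  obtain ⟨a, ha⟩ := w.exists_valuation_sub_lt_of_integer hy 1
  obtain ⟨c, hc⟩ := hf a
  refine ⟨algebraMap (𝓞 K) K c, v.valuation_le_one c, ?_⟩
  rw [Units.val_one, Valuation.map_sub_swap] at ha
  have hc' : w.valuation L (algebraMap (𝓞 L) L a -
      algebraMap (𝓞 L) L (algebraMap (𝓞 K) (𝓞 L) c)) < 1 := by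
    rw [← map_sub]
    exact (w.valuation_lt_one_iff_mem (K := L) _).mpr hc
  have e : y - algebraMap K L (algebraMap (𝓞 K) K c) =
      (y - algebraMap (𝓞 L) L a) +
        (algebraMap (𝓞 L) L a - algebraMap (𝓞 L) L (algebraMap (𝓞 K) (𝓞 L) c)) := by
    rw [← IsScalarTower.algebraMap_apply (𝓞 K) K L, ← IsScalarTower.algebraMap_apply (𝓞 K) (𝓞 L) L]
    ring
  rw [e]
  exact lt_of_le_of_lt (Valuation.map_add _ _ _) (max_lt ha hc')

end Fermat.Agent.S55.NIT
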