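/-
S55 / NIT, node NIT-L1: if `w` is the only prime above `v`, the Galois group preserves `w`.
-/
import Fermat.Agent.S55.NIT.Loc.Defs
import Fermat.Agent.S55.NIT.FI.GaloisVal

set_option autoImplicit false

namespace Fermat.Agent.S55.NIT

open IsDedekindDomain NumberField WithZero

variable {K : Type*} [Field K] [NumberField K] {L : Type*} [Field L] [NumberField L] [Algebra K L]

/-- a place of `L` whose restriction is `v` gives an element of `primesOver`. -/
theorem ValSigma.mem_primesOver (v : Pl K) (w : Pl L) (hw : w.under (𝓞 K) = v) :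
    w.asIdeal ∈ v.asIdeal.primesOver (𝓞 L) := by
  refine ⟨w.isPrime, ⟨?_⟩⟩
  rw [← hw]
  rfl

/-- NIT-L1 (file Loc/ValSigma.lean). If `w` is the only prime above `v`, the Galois group preserves
`w`.  Proof: `FI.exists_valuation_comp`, both ideals lie in `primesOver`, `Set.ncard_eq_one`. -/
theorem val_sigma_eq (v : Pl K) (h1 : (v.asIdeal.primesOver (𝓞 L)).ncard = 1) (w : Pl L)
    (hw : w.under (𝓞 K) = v) (σ : L ≃ₐ[K] L) (y : L) :
    w.valuation L (σ y) = w.valuation L y := by
  obtain ⟨w', hw', hval⟩ := FI.exists_valuation_comp K L σ w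
  obtain ⟨P, hP⟩ := Set.ncard_eq_one.mp h1
  have h2 : w.asIdeal = P := by
    have := ValSigma.mem_primesOver v w hw
    rw [hP] at this
    exact this
  have h3 : w'.asIdeal = P := by
    have := ValSigma.mem_primesOver v w' (hw'.trans hw)
    rw [hP] at this
    exact this
  have h4 : w' = w := HeightOneSpectrum.ext (h3.trans h2.symm)
  rw [← hval y, h4]

end Fermat.Agent.S55.NIT
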