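/-
S55 / NIT-L7 : totally ramified case, the norm of a `w`-unit is a `p`-th power modulo `v`.
-/
import Fermat.Agent.S55.NIT.Loc.ValSigma
import Fermat.Agent.S55.NIT.Loc.Residue

set_option autoImplicit false

namespace Fermat.Agent.S55.NIT

open IsDedekindDomain NumberField WithZero

namespace NormCongr

/-- In a valued ring: if all `a i` are congruent to `c` (`val c ≤ 1`), then the product of the `a i`
is congruent to the corresponding power of `c`. -/
theorem val_prod_sub_pow_lt_one {R Γ ι : Type*} [CommRing R] [LinearOrderedCommGroupWithZero Γ]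
    (val : Valuation R Γ) (c : R) (hc : val c ≤ 1) (a : ι → R) (s : Finset ι)
    (ha : ∀ i ∈ s, val (a i - c) < 1) (hs : s.Nonempty) :
    val (∏ i ∈ s, a i - c ^ s.card) < 1 := by
  classical
  induction hs using Finset.Nonempty.cons_induction with
  | singleton i => simpa using ha i (by simp)
  | cons i s hi hs ih =>
    have hai : val (a i - c) < 1 := ha i (by simp)
    have hai1 : val (a i) ≤ 1 := by
      have : a i = (a i - c) + c := by ring
      rw [this]
      exact le_trans (Valuation.map_add _ _ _) (max_le hai.le hc)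
    have ih' := ih (fun j hj => ha j (by simp [hj]))
    rw [Finset.prod_cons, Finset.card_cons]
    have e : a i * ∏ j ∈ s, a j - c ^ (s.card + 1)
        = a i * (∏ j ∈ s, a j - c ^ s.card) + (a i - c) * c ^ s.card := by ring
    rw [e]
    refine lt_of_le_of_lt (Valuation.map_add _ _ _) (max_lt ?_ ?_)
    · rw [map_mul]
      exact lt_of_le_of_lt (mul_le_of_le_one_left zero_le hai1) ih'
    · rw [map_mul, map_pow]
      exact lt_of_le_of_lt (mul_le_of_le_one_right zero_le (pow_le_one₀ zero_le hc)) hai

variable {K : Type*} [Field K] [NumberField K] {L : Type*} [Field L] [NumberField L] [Algebra K L]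

/-- going down: `w (x) < 1` implies `v (x) < 1` for `x ∈ K`. -/
theorem val_lt_one_of_algebraMap (v : Pl K) (w : Pl L) (hw : w.under (𝓞 K) = v) (x : K)
    (hx : w.valuation L (algebraMap K L x) < 1) : v.valuation K x < 1 := by
  subst hw
  have : w.asIdeal.LiesOver (w.under (𝓞 K)).asIdeal := by
    rw [HeightOneSpectrum.under_asIdeal]
    infer_instance
  rw [← HeightOneSpectrum.valuation_liesOver L (w.under (𝓞 K)) w x] at hx
  by_contra hcon
  exact absurd hx (not_lt.2 (one_le_pow₀ (not_lt.1 hcon)))

/-- going up: `v (x) ≤ 1` implies `w (x) ≤ 1` for `x ∈ K`. -/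
theorem val_algebraMap_le_one (v : Pl K) (w : Pl L) (hw : w.under (𝓞 K) = v) (x : K)
    (hx : v.valuation K x ≤ 1) : w.valuation L (algebraMap K L x) ≤ 1 := by
  subst hw
  have : w.asIdeal.LiesOver (w.under (𝓞 K)).asIdeal := by
    rw [HeightOneSpectrum.under_asIdeal]
    infer_instance
  rw [← HeightOneSpectrum.valuation_liesOver L (w.under (𝓞 K)) w x]
  exact pow_le_one₀ zero_le hx

/-- `v (x) = 1` implies `w (x) = 1` for `x ∈ K`. -/
theorem val_algebraMap_eq_one (v : Pl K) (w : Pl L) (hw : w.under (𝓞 K) = v) (x : K)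
    (hx : v.valuation K x = 1) : w.valuation L (algebraMap K L x) = 1 := by
  subst hw
  have : w.asIdeal.LiesOver (w.under (𝓞 K)).asIdeal := by
    rw [HeightOneSpectrum.under_asIdeal]
    infer_instance
  rw [← HeightOneSpectrum.valuation_liesOver L (w.under (𝓞 K)) w x, hx, one_pow]

end NormCongr

variable {K : Type*} [Field K] [NumberField K] {L : Type*} [Field L] [NumberField L] [Algebra K L]

/-- NIT-L7. Totally ramified: the norm of a `w`-unit is a `p`-th power modulo `v`. -/
theorem exists_norm_sub_pow_lt_one [IsGalois K L] {p : ℕ} (hp : p.Prime)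
    (hdeg : Module.finrank K L = p) (v : Pl K) (h1 : (v.asIdeal.primesOver (𝓞 L)).ncard = 1)
    (w : Pl L) (hw : w.under (𝓞 K) = v)
    (hf : ∀ a : 𝓞 L, ∃ c : 𝓞 K, a - algebraMap (𝓞 K) (𝓞 L) c ∈ w.asIdeal)
    (y : L) (hy : w.valuation L y = 1) :
    ∃ c : K, v.valuation K (Algebra.norm K y - c ^ p) < 1 := by
  classical
  obtain ⟨c, hc1, hc⟩ := exists_sub_lt_one v w hw hf y hy.le
  refine ⟨c, NormCongr.val_lt_one_of_algebraMap v w hw _ ?_⟩
  rw [map_sub, map_pow, Algebra.norm_eq_prod_automorphisms]
  have hcard : (Finset.univ : Finset (L ≃ₐ[K] L)).card = p := by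
    rw [Finset.card_univ, ← Nat.card_eq_fintype_card, IsGalois.card_aut_eq_finrank, hdeg]
  have hne : (Finset.univ : Finset (L ≃ₐ[K] L)).Nonempty := ⟨1, Finset.mem_univ _⟩
  have key := NormCongr.val_prod_sub_pow_lt_one (w.valuation L) (algebraMap K L c)
    (NormCongr.val_algebraMap_le_one v w hw c hc1) (fun σ : L ≃ₐ[K] L => σ y) Finset.univ
    (fun σ _ => by
      have : σ y - algebraMap K L c = σ (y - algebraMap K L c) := by
        rw [map_sub, AlgEquiv.commutes]
      rw [this, val_sigma_eq v h1 w hw σ]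
      exact hc) hne
  rwa [hcard] at key

end Fermat.Agent.S55.NIT
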