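/-
S55 / NIT, node NIT-L2: the valuation of a norm when there is only one prime above.
-/
import Fermat.Agent.S55.NIT.Loc.ValSigma

set_option autoImplicit false

namespace Fermat.Agent.S55.NIT

open IsDedekindDomain NumberField WithZero

variable {K : Type*} [Field K] [NumberField K] {L : Type*} [Field L] [NumberField L] [Algebra K L]

/-- NIT-L2 (file Loc/ValNorm.lean). Proof: `Algebra.norm_eq_prod_automorphisms`, `map_prod`, L1,
`IsGalois.card_aut_eq_finrank`. -/
theorem val_norm_eq_pow [IsGalois K L] (v : Pl K) (h1 : (v.asIdeal.primesOver (𝓞 L)).ncard = 1)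
    (w : Pl L) (hw : w.under (𝓞 K) = v) (y : L) :
    w.valuation L (algebraMap K L (Algebra.norm K y)) = w.valuation L y ^ Module.finrank K L := by
  classical
  rw [Algebra.norm_eq_prod_automorphisms, map_prod]
  simp only [val_sigma_eq v h1 w hw]
  rw [Finset.prod_const, Finset.card_univ, ← Nat.card_eq_fintype_card,
    IsGalois.card_aut_eq_finrank]

end Fermat.Agent.S55.NIT
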