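/-
S55 / NIT-L8 : tamely ramified case, a unit which is not a `p`-th power modulo `v` is not a local norm.
-/
import Fermat.Agent.S55.NIT.Loc.NormCongr
import Fermat.Agent.S55.NIT.Loc.ValNorm
import Fermat.Agent.S55.NIT.Loc.NonPow

set_option autoImplicit false

namespace Fermat.Agent.S55.NIT

open IsDedekindDomain NumberField WithZero

variable {K : Type*} [Field K] [NumberField K] {L : Type*} [Field L] [NumberField L] [Algebra K L]

/-- NIT-L8. Tamely ramified: the unit of L6 is not a local norm. -/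
theorem locNorm_ne_top_of_tame [IsGalois K L] {p : ℕ} (hp : p.Prime)
    (hdeg : Module.finrank K L = p) {ζ : K} (hζ : IsPrimitiveRoot ζ p) (v : Pl K)
    (hv : (p : 𝓞 K) ∉ v.asIdeal) (h1 : (v.asIdeal.primesOver (𝓞 L)).ncard = 1)
    (w : Pl L) (hw : w.under (𝓞 K) = v)
    (hf : ∀ a : 𝓞 L, ∃ c : 𝓞 K, a - algebraMap (𝓞 K) (𝓞 L) c ∈ w.asIdeal) :
    locNorm K L v ≠ ⊤ := by
  intro htop
  obtain ⟨u, hu1, hu⟩ := exists_unit_not_pow hp hζ v hv
  have hmem : u ∈ locNorm K L v := by rw [htop]; exact Subgroup.mem_top u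
  obtain ⟨y, hy⟩ := mem_locNorm.1 hmem 0
  set Ny : Kˣ := Units.map (Algebra.norm K : L →* K) y with hNy
  have hNyval : (Ny : K) = Algebra.norm K (y : L) := rfl
  have ht1 : v.valuation K ((u / Ny : Kˣ) : K) = 1 := val_eq_one_of_mem_pu hy
  have hNy1 : v.valuation K (Ny : K) = 1 := by
    have e : (u : K) = ((u / Ny : Kˣ) : K) * (Ny : K) := by
      rw [← Units.val_mul, div_mul_cancel]
    have := congrArg (v.valuation K) e
    rw [map_mul, ht1, one_mul, hu1] at this
    exact this.symm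
  have hwy : w.valuation L (y : L) = 1 := by
    have h2 := val_norm_eq_pow v h1 w hw (y : L)
    rw [← hNyval, NormCongr.val_algebraMap_eq_one v w hw _ hNy1, hdeg] at h2
    exact (pow_eq_one_iff_of_nonneg zero_le hp.ne_zero).1 h2.symm
  obtain ⟨c, hc⟩ := exists_norm_sub_pow_lt_one hp hdeg v h1 w hw hf (y : L) hwy
  apply hu
  refine ⟨c, ?_⟩
  have hlt : v.valuation K (((u / Ny : Kˣ) : K) - 1) < 1 := by
    have := mem_pu.1 hy
    simpa using this
  have e : (u : K) - c ^ p
      = (Ny : K) * (((u / Ny : Kˣ) : K) - 1) + (Algebra.norm K (y : L) - c ^ p) := by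
    have e' : (u : K) = ((u / Ny : Kˣ) : K) * (Ny : K) := by
      rw [← Units.val_mul, div_mul_cancel]
    rw [← hNyval]
    linear_combination e'
  rw [e]
  refine lt_of_le_of_lt (Valuation.map_add _ _ _) (max_lt ?_ hc)
  rw [map_mul, hNy1, one_mul]
  exact hlt

end Fermat.Agent.S55.NIT
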