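/-
S55 / NIT, node NIT-L4: unramified nonsplit place: a uniformiser is not a local norm.
-/
import Fermat.Agent.S55.NIT.Loc.ValNorm

set_option autoImplicit false

namespace Fermat.Agent.S55.NIT

open IsDedekindDomain NumberField WithZero

variable {K : Type*} [Field K] [NumberField K] {L : Type*} [Field L] [NumberField L] [Algebra K L]

/-- NIT-L4 (file Loc/NonNormUnram.lean). Unramified nonsplit: a uniformiser is not a local norm.
Proof: `x` with `v x = exp (-1)` (`HeightOneSpectrum.valuation_exists_uniformizer`); if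
`x = N y * u`, `u ∈ pu v 0`, then `v x = v (N y) = w (N y) = w y ^ p` (`valuation_liesOver`, L2). -/
theorem locNorm_ne_top_of_unram [IsGalois K L] {p : ℕ} (hp : p.Prime)
    (hdeg : Module.finrank K L = p) (v : Pl K) (h1 : (v.asIdeal.primesOver (𝓞 L)).ncard = 1)
    (w : Pl L) (hw : w.under (𝓞 K) = v) (he : v.asIdeal.ramificationIdx' w.asIdeal = 1) :
    locNorm K L v ≠ ⊤ := by
  intro htop
  obtain ⟨x, hx⟩ := v.valuation_exists_uniformizer K
  have hx0 : x ≠ 0 := by
    rintro rfl
    rw [map_zero] at hx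
    exact WithZero.exp_ne_zero hx.symm
  have hmem : Units.mk0 x hx0 ∈ locNorm K L v := by rw [htop]; exact Subgroup.mem_top _
  obtain ⟨y, hy⟩ := mem_locNorm.1 hmem 0
  have hval := val_eq_one_of_mem_pu hy
  have hNy : Algebra.norm K (y : L) ≠ 0 := by
    rw [Ne, Algebra.norm_eq_zero_iff]
    exact y.ne_zero
  have hvN : v.valuation K (Algebra.norm K (y : L)) = exp (-1 : ℤ) := by
    have e : ((Units.mk0 x hx0 / Units.map (Algebra.norm K : L →* K) y : Kˣ) : K)
        = x / Algebra.norm K (y : L) := by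
      rw [Units.val_div_eq_div_val]
      rfl
    rw [e, map_div₀, div_eq_one_iff_eq (by simp)] at hval
    rw [← hval, hx]
  have hlo : w.asIdeal.LiesOver v.asIdeal := by
    subst hw
    rw [HeightOneSpectrum.under_asIdeal]
    infer_instance
  have hdown := HeightOneSpectrum.valuation_liesOver L v w (Algebra.norm K (y : L))
  rw [he, pow_one, hvN, val_norm_eq_pow v h1 w hw, hdeg] at hdown
  have hwy : w.valuation L (y : L) ≠ 0 := by simp
  rw [← WithZero.exp_log hwy, ← WithZero.exp_nsmul, WithZero.exp_inj] at hdown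
  have h2 := hp.two_le
  rw [nsmul_eq_mul] at hdown
  have hdvd : (p : ℤ) ∣ -1 := ⟨_, hdown⟩
  have hdvd' : (p : ℤ) ∣ 1 := by simpa using hdvd
  have := Int.le_of_dvd one_pos hdvd'
  omega

end Fermat.Agent.S55.NIT
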