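/-
S55 / NIT-L9 : at a place with exactly one prime above it the local norms form a proper subgroup.
-/
import Fermat.Agent.S55.NIT.Loc.NonNormTame
import Fermat.Agent.S55.NIT.Loc.NonNormUnram
import Fermat.Agent.S55.NIT.Loc.EF

set_option autoImplicit false

namespace Fermat.Agent.S55.NIT

open IsDedekindDomain NumberField WithZero

universe u

/-- NIT-L9. Assembly of L3, L4, L8 and `WildInput`. -/
theorem locNorm_ne_top {K L : Type u} [Field K] [NumberField K] [Field L] [NumberField L]
    [Algebra K L] [IsGalois K L] {p : ℕ} (hp : p.Prime) (hdeg : Module.finrank K L = p)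
    {ζ : K} (hζ : IsPrimitiveRoot ζ p) (hW : WildInput p K) (v : Pl K)
    (h1 : (v.asIdeal.primesOver (𝓞 L)).ncard = 1) : locNorm K L v ≠ ⊤ := by
  obtain ⟨P, hP⟩ := Set.ncard_eq_one.1 h1
  have hPmem : P ∈ v.asIdeal.primesOver (𝓞 L) := by rw [hP]; exact Set.mem_singleton P
  obtain ⟨hPprime, hPover⟩ := hPmem
  have hPbot : P ≠ ⊥ := by
    intro hbot
    apply v.ne_bot
    rw [hPover.over, hbot]
    exact Ideal.comap_bot_of_injective _ (FaithfulSMul.algebraMap_injective (𝓞 K) (𝓞 L))
  let w : Pl L := ⟨P, hPprime, hPbot⟩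
  have hw : w.under (𝓞 K) = v := by
    ext1
    rw [HeightOneSpectrum.under_asIdeal]
    exact hPover.over.symm
  rcases ramIdx_eq_one_or hp hdeg v h1 w hw with he | ⟨-, hf⟩
  · exact locNorm_ne_top_of_unram hp hdeg v h1 w hw he
  · by_cases hv : (p : 𝓞 K) ∈ v.asIdeal
    · exact hW L hdeg v hv h1
    · exact locNorm_ne_top_of_tame hp hdeg hζ v hv h1 w hw hf

end Fermat.Agent.S55.NIT
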